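/-
CELL-H / G6 GENERICITY (helper87): generic-choice lemmas on a function field `F / K` in the
prelude `Place / Divisor / riemannRochSpace` API, from Riemann's theorem in the `LSpaceHyp.rrF`
shape ONLY (`∀ E, c ≤ deg E → l(E) = deg E + 1 - g`) — no differentials, no Serre duality.

* `IsJump D P` : `L(D + P) ⊄ L(D)`;
* `finrank_add_card_le` : jumps at distinct places are independent: `l(D) + #T ≤ l(D + Σ_T P)`;
* `finite_jump` (a') : if `l(D) > deg D + 1 - g` (`D` special) then only finitely many `P` jump,
  i.e. `L(D + P) = L(D)` for all but finitely many `P`;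
* `exists_nonspecial` (b) : for `n ≤ g` there are `n` DISTINCT places outside any finite set `S`
  with `l(Σ P) = 1` (and `l = 1` for every sub-sum, `finrank_sum_eq_one_of_subset`);
* `finite_basePoints` / `finrank_sub_single` (a) : `L(D) ≠ ⊥` ⟹ `l(D - P) = l(D) - 1` for all but
  finitely many `P`;
* `isMinDiv_of_degree` / `exists_member_avoiding` (c) : `deg D ≥ c + 1` ⟹ `|D|` is base-point free
  and (over an infinite `K`) has a member with exact orders `-D P` on any finite set of places.
-/
import Mathlib
import Fermat.Agent.GJ.S37.MinDiv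

set_option autoImplicit false

noncomputable section

open AlgebraicCurve

namespace Fermat.Agent.GH.G6

open Fermat.Agent.RRh45 Fermat.Agent.GJ.S37MinDiv

variable {K F : Type*} [Field K] [Field F] [Algebra K F]

/-- the reduced effective divisor `Σ_{P ∈ T} P`. -/
def sumDiv (T : Finset (Place K F)) : Divisor K F := ∑ P ∈ T, Finsupp.single P (1 : ℤ)

theorem sumDiv_empty : sumDiv (∅ : Finset (Place K F)) = 0 := Finset.sum_empty

theorem sumDiv_insert [DecidableEq (Place K F)] {T : Finset (Place K F)} {P : Place K F}
    (hP : P ∉ T) : sumDiv (insert P T) = sumDiv T + Finsupp.single P 1 := by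
  rw [sumDiv, Finset.sum_insert hP, add_comm]; rfl

theorem sumDiv_apply_of_notMem {T : Finset (Place K F)} {P : Place K F} (hP : P ∉ T) :
    sumDiv T P = 0 := by
  classical
  rw [sumDiv, Finsupp.finsetSum_apply]
  refine Finset.sum_eq_zero fun Q hQ => ?_
  rw [Finsupp.single_apply, if_neg]
  rintro rfl
  exact hP hQ

theorem sumDiv_nonneg (T : Finset (Place K F)) : 0 ≤ sumDiv T := by
  refine Finset.sum_nonneg fun P _ => ?_
  rw [Finsupp.le_def]
  intro Q
  classical
  rw [Finsupp.single_apply]
  split_ifs <;> simp

theorem sumDiv_mono {T T' : Finset (Place K F)} (h : T ⊆ T') : sumDiv T ≤ sumDiv T' := by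
  classical
  rw [sumDiv, sumDiv, ← Finset.sum_sdiff h]
  refine le_add_of_nonneg_left (Finset.sum_nonneg fun P _ => ?_)
  rw [Finsupp.le_def]
  intro Q
  rw [Finsupp.single_apply]
  split_ifs <;> simp

theorem degree_sumDiv (hdeg : ∀ P : Place K F, P.deg = 1) (T : Finset (Place K F)) :
    Divisor.degree (sumDiv T) = T.card := by
  rw [sumDiv, map_sum]
  simp only [Divisor.degree_single, hdeg, Nat.cast_one, mul_one, Finset.sum_const, nsmul_eq_mul]

/-! ### Jumps -/

/-- `P` is a jump of `D`: `L(D + P)` is strictly bigger than `L(D)`. -/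
def IsJump (D : Divisor K F) (P : Place K F) : Prop :=
  ¬ riemannRochSpace (D + Finsupp.single P 1) ≤ riemannRochSpace D

theorem le_add_single (D : Divisor K F) (P : Place K F) : D ≤ D + Finsupp.single P 1 := by
  refine le_add_of_nonneg_right ?_
  rw [Finsupp.le_def]
  intro Q
  classical
  rw [Finsupp.single_apply]
  split_ifs <;> simp

theorem eq_of_not_isJump {D : Divisor K F} {P : Place K F} (h : ¬ IsJump D P) :
    riemannRochSpace (D + Finsupp.single P 1) = riemannRochSpace D :=
  le_antisymm (not_not.mp h) (riemannRochSpace_mono (le_add_single D P))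

/-- a jump is witnessed by a function with a pole of EXACT order `D P + 1` at `P`. -/
theorem IsJump.exists_pole {D : Divisor K F} {P : Place K F} (h : IsJump D P) :
    ∃ f : F, f ∈ riemannRochSpace (D + Finsupp.single P 1) ∧ f ≠ 0 ∧ P.ord f = -D P - 1 := by
  obtain ⟨f, hf, hfD⟩ := SetLike.not_le_iff_exists.mp h
  have hf0 : f ≠ 0 := fun h0 => hfD (h0 ▸ zero_mem _)
  refine ⟨f, hf, hf0, ?_⟩
  rw [mem_riemannRochSpace_iff] at hf hfD
  push Not at hfD
  obtain ⟨w, -, hw⟩ := hfD
  have hw' := (hf w).resolve_left hf0
  by_cases hwP : w = P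
  · subst hwP
    rw [Finsupp.add_apply, Finsupp.single_eq_same] at hw'
    omega
  · rw [Finsupp.add_apply, Finsupp.single_eq_of_ne hwP] at hw'
    omega

/-- jumps persist when `D` grows away from `P`. -/
theorem IsJump.mono {D E : Divisor K F} {P : Place K F} (h : IsJump D P) (hDE : D ≤ E)
    (hP : E P = D P) : IsJump E P := by
  obtain ⟨f, hf, hf0, hord⟩ := h.exists_pole
  intro hle
  have hfE : f ∈ riemannRochSpace E :=
    hle (riemannRochSpace_mono (add_le_add_left hDE _) hf)
  have := (mem_riemannRochSpace_iff.mp hfE P).resolve_left hf0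
  omega

section Finite

variable [FiniteResidues K F] [HasPrincipalDivisors K F] [Nonempty (Place K F)]

theorem IsJump.finrank_lt {D : Divisor K F} {P : Place K F} (h : IsJump D P) :
    Module.finrank K (riemannRochSpace D) <
      Module.finrank K (riemannRochSpace (D + Finsupp.single P 1)) :=
  Submodule.finrank_lt_finrank_of_lt
    (lt_of_le_not_ge (riemannRochSpace_mono (le_add_single D P)) h)

/-- **independence of jumps** at distinct places. -/
theorem finrank_add_card_le (D : Divisor K F) (T : Finset (Place K F))
    (hT : ∀ P ∈ T, IsJump D P) :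
    Module.finrank K (riemannRochSpace D) + T.card ≤
      Module.finrank K (riemannRochSpace (D + sumDiv T)) := by
  classical
  induction T using Finset.induction_on with
  | empty => rw [sumDiv_empty, add_zero, Finset.card_empty, add_zero]
  | insert a T ha ih =>
    have h1 := ih fun P hP => hT P (Finset.mem_insert_of_mem hP)
    have hjump : IsJump (D + sumDiv T) a :=
      (hT a (Finset.mem_insert_self a T)).mono (le_add_of_nonneg_right (sumDiv_nonneg T))
        (by rw [Finsupp.add_apply, sumDiv_apply_of_notMem ha, add_zero])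
    have h2 := hjump.finrank_lt
    rw [sumDiv_insert ha, Finset.card_insert_of_notMem ha, ← add_assoc D]
    omega

/-- **(a')** a SPECIAL divisor (`l(D) > deg D + 1 - g`) has only finitely many jumps: Riemann's
theorem in the `rrF` shape is the only input. -/
theorem finite_jump (hdeg : ∀ P : Place K F, P.deg = 1) {g c : ℤ}
    (rr : ∀ E : Divisor K F, c ≤ Divisor.degree E →
      (Module.finrank K (riemannRochSpace E) : ℤ) = Divisor.degree E + 1 - g)
    {D : Divisor K F}
    (hD : Divisor.degree D + 1 - g < (Module.finrank K (riemannRochSpace D) : ℤ)) :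
    {P : Place K F | IsJump D P}.Finite := by
  by_contra hinf
  rw [← Set.Infinite] at hinf
  obtain ⟨T, hTs, hTc⟩ := hinf.exists_subset_card_eq (c - Divisor.degree D).toNat
  have h1 := finrank_add_card_le D T fun P hP => hTs hP
  have hdegT : Divisor.degree (D + sumDiv T) = Divisor.degree D + T.card := by
    rw [map_add, degree_sumDiv hdeg]
  have hc : c ≤ Divisor.degree (D + sumDiv T) := by
    rw [hdegT, hTc]
    have := Int.self_le_toNat (c - Divisor.degree D)
    omega
  have h2 := rr _ hc
  rw [hdegT] at h2
  have h3 : (Module.finrank K (riemannRochSpace D) : ℤ) + T.card ≤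
      (Module.finrank K (riemannRochSpace (D + sumDiv T)) : ℤ) := by exact_mod_cast h1
  omega

/-- `l(Σ_T P) = 1` passes to sub-sums. -/
theorem finrank_sum_eq_one_of_subset {T T' : Finset (Place K F)} (h : T' ⊆ T)
    (hT : Module.finrank K (riemannRochSpace (sumDiv T)) = 1) :
    Module.finrank K (riemannRochSpace (sumDiv T')) = 1 := by
  have h1 : Module.finrank K (riemannRochSpace (sumDiv T')) ≤
      Module.finrank K (riemannRochSpace (sumDiv T)) :=
    Submodule.finrank_mono (riemannRochSpace_mono (sumDiv_mono h))
  have h2 : 0 < Module.finrank K (riemannRochSpace (sumDiv T')) := by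
    have : Nontrivial (riemannRochSpace (sumDiv T')) :=
      ⟨⟨⟨1, one_mem_riemannRochSpace (sumDiv_nonneg T')⟩, 0,
        fun h => one_ne_zero (congrArg Subtype.val h)⟩⟩
    exact Module.finrank_pos
  omega

/-- **(b)** reduced NON-SPECIAL effective divisors of every degree `n ≤ g` exist away from any
finite set of places. -/
theorem exists_nonspecial [Infinite (Place K F)] (hdeg : ∀ P : Place K F, P.deg = 1) {g c : ℤ}
    (rr : ∀ E : Divisor K F, c ≤ Divisor.degree E →
      (Module.finrank K (riemannRochSpace E) : ℤ) = Divisor.degree E + 1 - g)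
    (h0 : Module.finrank K (riemannRochSpace (0 : Divisor K F)) = 1)
    (S : Finset (Place K F)) (n : ℕ) (hn : (n : ℤ) ≤ g) :
    ∃ T : Finset (Place K F), T.card = n ∧ Disjoint T S ∧
      Module.finrank K (riemannRochSpace (sumDiv T)) = 1 := by
  classical
  induction n with
  | zero => exact ⟨∅, rfl, Finset.disjoint_empty_left S, by rw [sumDiv_empty]; exact h0⟩
  | succ n ih =>
    obtain ⟨T, hTc, hTS, hT1⟩ := ih (by push_cast at hn; omega)
    have hspecial : Divisor.degree (sumDiv T) + 1 - g <
        (Module.finrank K (riemannRochSpace (sumDiv T)) : ℤ) := by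
      rw [degree_sumDiv hdeg, hTc, hT1]
      push_cast at hn ⊢
      omega
    have hfin := finite_jump hdeg rr hspecial
    obtain ⟨P, hP⟩ := Infinite.exists_notMem_finset (hfin.toFinset ∪ S ∪ T)
    simp only [Finset.mem_union, Set.Finite.mem_toFinset, Set.mem_ofPred_eq, not_or] at hP
    obtain ⟨⟨hPJ, hPS⟩, hPT⟩ := hP
    refine ⟨insert P T, by rw [Finset.card_insert_of_notMem hPT, hTc], ?_, ?_⟩
    · rw [Finset.disjoint_insert_left]
      exact ⟨hPS, hTS⟩
    · rw [sumDiv_insert hPT, eq_of_not_isJump hPJ, hT1]

end Finite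

/-! ### Base points -/

/-- `P` is a base point of `|D|`: `L(D - P) = L(D)`. -/
def IsBasePoint (D : Divisor K F) (P : Place K F) : Prop :=
  riemannRochSpace D ≤ riemannRochSpace (D - Finsupp.single P 1)

/-- **(a)** a nonzero `L(D)` has only finitely many base points. -/
theorem finite_basePoints [HasPrincipalDivisors K F] {D : Divisor K F}
    (hD : riemannRochSpace D ≠ ⊥) : {P : Place K F | IsBasePoint D P}.Finite := by
  classical
  obtain ⟨f, hf, hf0⟩ := (Submodule.ne_bot_iff _).mp hD
  obtain ⟨Df, hDf, -⟩ := HasPrincipalDivisors.exists_divisor (K := K) f hf0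
  refine Set.Finite.subset (Df.support ∪ D.support).finite_toSet fun P hP => ?_
  by_contra hnot
  rw [Finset.mem_coe, Finset.mem_union, not_or, Finsupp.notMem_support_iff,
    Finsupp.notMem_support_iff] at hnot
  have := (mem_riemannRochSpace_iff.mp (hP hf) P).resolve_left hf0
  rw [Finsupp.sub_apply, Finsupp.single_eq_same, hnot.2, ← hDf P, hnot.1] at this
  omega

theorem finrank_sub_single [FiniteResidues K F] [HasPrincipalDivisors K F]
    [Nonempty (Place K F)] {D : Divisor K F} {P : Place K F} (hP : P.deg = 1)
    (hb : ¬ IsBasePoint D P) :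
    Module.finrank K (riemannRochSpace (D - Finsupp.single P 1)) + 1 =
      Module.finrank K (riemannRochSpace D) := by
  have h1 := (finite_step D P).2
  have h2 : Module.finrank K (riemannRochSpace (D - Finsupp.single P 1)) <
      Module.finrank K (riemannRochSpace D) :=
    Submodule.finrank_lt_finrank_of_lt
      (lt_of_le_not_ge (riemannRochSpace_mono (sub_single_le D P)) hb)
  omega

/-! ### Base-point freeness in large degree -/

section Large

variable [FiniteResidues K F] [HasPrincipalDivisors K F] [Nonempty (Place K F)]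

omit [FiniteResidues K F] [HasPrincipalDivisors K F] [Nonempty (Place K F)] in
theorem degree_sub_single (hdeg : ∀ P : Place K F, P.deg = 1) (D : Divisor K F)
    (P : Place K F) : Divisor.degree (D - Finsupp.single P 1) = Divisor.degree D - 1 := by
  rw [map_sub, Divisor.degree_single, hdeg, Nat.cast_one, mul_one]

/-- in degree `≥ c + 1` there are no base points. -/
theorem not_isBasePoint_of_degree (hdeg : ∀ P : Place K F, P.deg = 1) {g c : ℤ}
    (rr : ∀ E : Divisor K F, c ≤ Divisor.degree E →
      (Module.finrank K (riemannRochSpace E) : ℤ) = Divisor.degree E + 1 - g)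
    {D : Divisor K F} (hD : c + 1 ≤ Divisor.degree D) (P : Place K F) : ¬ IsBasePoint D P := by
  intro hb
  have h1 := rr D (by omega)
  have h2 := rr (D - Finsupp.single P 1) (by rw [degree_sub_single hdeg]; omega)
  rw [degree_sub_single hdeg] at h2
  have h3 : Module.finrank K (riemannRochSpace D) ≤
      Module.finrank K (riemannRochSpace (D - Finsupp.single P 1)) := Submodule.finrank_mono hb
  omega

theorem riemannRochSpace_ne_bot_of_degree (hdeg : ∀ P : Place K F, P.deg = 1) {g c : ℤ}
    (rr : ∀ E : Divisor K F, c ≤ Divisor.degree E →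
      (Module.finrank K (riemannRochSpace E) : ℤ) = Divisor.degree E + 1 - g)
    {D : Divisor K F} (hD : c + 1 ≤ Divisor.degree D) : riemannRochSpace D ≠ ⊥ := by
  obtain ⟨P⟩ := ‹Nonempty (Place K F)›
  intro hbot
  apply not_isBasePoint_of_degree hdeg rr hD P
  rw [IsBasePoint, hbot]
  exact bot_le

/-- **(c)**, structural form: in degree `≥ c + 1`, `D` is the minimal divisor of `L(D)`. -/
theorem isMinDiv_of_degree (hdeg : ∀ P : Place K F, P.deg = 1) {g c : ℤ}
    (rr : ∀ E : Divisor K F, c ≤ Divisor.degree E →
      (Module.finrank K (riemannRochSpace E) : ℤ) = Divisor.degree E + 1 - g)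
    {D : Divisor K F} (hD : c + 1 ≤ Divisor.degree D) : IsMinDiv (riemannRochSpace D) D := by
  refine ⟨le_rfl, fun E' hE' => ?_⟩
  rw [Finsupp.le_def]
  intro P
  by_contra hlt
  push Not at hlt
  apply not_isBasePoint_of_degree hdeg rr hD P
  have hinf : riemannRochSpace D ≤ riemannRochSpace (D ⊓ E') := by
    rw [riemannRochSpace_inf]; exact le_inf le_rfl hE'
  refine hinf.trans (riemannRochSpace_mono ?_)
  rw [Finsupp.le_def]
  intro Q
  rw [Finsupp.inf_apply, Finsupp.sub_apply]
  by_cases hQ : Q = P
  · subst hQ
    rw [Finsupp.single_eq_same]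
    have := inf_le_right (a := D Q) (b := E' Q)
    omega
  · rw [Finsupp.single_eq_of_ne hQ, sub_zero]
    exact inf_le_left

/-- **(c)**: in degree `≥ c + 1` and over an infinite constant field, `|D|` has a member whose
order at every place of a given finite set is EXACTLY `-D P` (so the effective divisor
`div f + D` avoids that set). -/
theorem exists_member_avoiding [Infinite K] (hdeg : ∀ P : Place K F, P.deg = 1) {g c : ℤ}
    (rr : ∀ E : Divisor K F, c ≤ Divisor.degree E →
      (Module.finrank K (riemannRochSpace E) : ℤ) = Divisor.degree E + 1 - g)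
    {D : Divisor K F} (hD : c + 1 ≤ Divisor.degree D) (S : Finset (Place K F)) :
    ∃ f ∈ riemannRochSpace D, f ≠ 0 ∧ ∀ P ∈ S, P.ord f = -D P :=
  exists_generic (riemannRochSpace_ne_bot_of_degree hdeg rr hD) (isMinDiv_of_degree hdeg rr hD) S

end Large

/-! ### Infinitely many places -/

section InfinitePlaces

variable [FiniteResidues K F] [HasPrincipalDivisors K F]

open Fermat.Agent.S24

/-- a nonzero function with no zeros lies in `L(0)`. -/
theorem mem_riemannRochSpace_zero_of_no_zero {f : F} (hf0 : f ≠ 0)
    (hz : ∀ v : Place K F, v.ord f ≤ 0) : f ∈ riemannRochSpace (0 : Divisor K F) := by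
  obtain ⟨Df, hDf, hdeg⟩ := HasPrincipalDivisors.exists_divisor (K := K) f hf0
  have hneg : 0 ≤ -Df := by
    rw [Finsupp.le_def]
    intro v
    rw [Finsupp.neg_apply, hDf v]
    have := hz v
    simp only [Finsupp.coe_zero, Pi.zero_apply]
    omega
  have h0 : -Df = 0 :=
    eq_zero_of_nonneg_of_degree_eq_zero hneg (by rw [map_neg, hdeg, neg_zero])
  rw [mem_riemannRochSpace_iff]
  intro v
  right
  have : Df v = 0 := by
    have := congrArg (fun E : Divisor K F => E v) h0
    simpa using this
  rw [← hDf v, this]
  simp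

/-- a non-constant function has a zero, when `L(0)` is the constants. -/
theorem exists_ord_pos (h0 : Module.finrank K (riemannRochSpace (0 : Divisor K F)) = 1)
    {f : F} (hf : f ∉ Set.range (algebraMap K F)) : ∃ v : Place K F, 0 < v.ord f := by
  by_contra hno
  push Not at hno
  have hf0 : f ≠ 0 := fun h => hf ⟨0, by rw [map_zero, h]⟩
  have hmem := mem_riemannRochSpace_zero_of_no_zero hf0 hno
  have hone : (⟨1, one_mem_riemannRochSpace le_rfl⟩ : riemannRochSpace (0 : Divisor K F)) ≠ 0 :=
    fun h => one_ne_zero (congrArg Subtype.val h)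
  obtain ⟨c, hc⟩ := (finrank_eq_one_iff_of_nonzero' _ hone).mp h0 ⟨f, hmem⟩
  apply hf
  refine ⟨c, ?_⟩
  have := congrArg Subtype.val hc
  simpa [Algebra.smul_def] using this

/-- **infinitely many places**: a function field with a non-constant function over an infinite
constant field, with `L(0) = K`, has infinitely many places (a zero of `x - a` for each `a`). -/
theorem infinite_place [Infinite K]
    (h0 : Module.finrank K (riemannRochSpace (0 : Divisor K F)) = 1)
    {x : F} (hx : x ∉ Set.range (algebraMap K F)) : Infinite (Place K F) := by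
  have hxa : ∀ a : K, x - algebraMap K F a ∉ Set.range (algebraMap K F) := by
    rintro a ⟨b, hb⟩
    exact hx ⟨b + a, by rw [map_add, hb]; ring⟩
  choose P hP using fun a : K => exists_ord_pos h0 (hxa a)
  refine Infinite.of_injective P fun a b hab => ?_
  by_contra hne
  have h1 := hP a
  have h2 := hP b
  rw [hab] at h1
  have hfa : x - algebraMap K F a ≠ 0 := fun h => hxa a ⟨0, by rw [map_zero, h]⟩
  have hfb : x - algebraMap K F b ≠ 0 := fun h => hxa b ⟨0, by rw [map_zero, h]⟩
  have hba : b - a ≠ 0 := sub_ne_zero.mpr (Ne.symm hne)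
  have hsum : (x - algebraMap K F a) + -(x - algebraMap K F b) = algebraMap K F (b - a) := by
    rw [map_sub]; ring
  have hconst : algebraMap K F (b - a) ≠ 0 :=
    (map_ne_zero_iff _ (algebraMap K F).injective).mpr hba
  have h3 := PlaceB.ord_add_ge (P b) hfa (neg_ne_zero.mpr hfb) (by rw [hsum]; exact hconst)
  rw [hsum, PlaceB.ord_algebraMap (P b) hba, PlaceB.ord_neg] at h3
  have := min_le_iff.mp h3
  omega

end InfinitePlaces

end Fermat.Agent.GH.G6
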