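/-
GATE-H / node G GENERIC, part (e) (helper87): families of pairwise disjoint reduced non-special
divisors in the `Chart.hns` spelling of `GH/Vocab.lean`, and the binder-killers

* `finrank_riemannRochSpace_zero` : `l(0) = 1` as soon as ONE place has degree one;
* `exists_nonconstant_of_rr`, `infinite_place_of_rr` : a non-constant function and infinitely many
  places from Riemann's theorem (`rrF` shape) over an infinite constant field;
* `exists_nonspecial_fin` : `Q : Fin n → Place K F` injective, off a finite set, `l(Σ Q i) = 1`;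
* `exists_nonspecial_family` : `m` such families, pairwise disjoint.
-/
import Mathlib
import Fermat.Agent.GH.G6.Generic

set_option autoImplicit false

noncomputable section

open AlgebraicCurve

namespace Fermat.Agent.GH.G6

open Fermat.Agent.RRh45 Fermat.Agent.GJ.S37MinDiv Fermat.Agent.S24

variable {K F : Type*} [Field K] [Field F] [Algebra K F]

/-! ### `l(0) = 1` -/

section Zero

variable [FiniteResidues K F] [HasPrincipalDivisors K F]

/-- a nonzero function without poles and with a zero does not exist. -/
theorem not_ord_pos_of_mem_zero {f : F} (hf0 : f ≠ 0)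
    (hf : f ∈ riemannRochSpace (0 : Divisor K F)) (v : Place K F) : ¬ 0 < v.ord f := by
  intro hpos
  obtain ⟨Df, hDf, hdeg⟩ := HasPrincipalDivisors.exists_divisor (K := K) f hf0
  have hnn : 0 ≤ Df := by
    rw [Finsupp.le_def]
    intro w
    have := (mem_riemannRochSpace_iff.mp hf w).resolve_left hf0
    rw [hDf w]
    simpa using this
  have h0 : Df = 0 := eq_zero_of_nonneg_of_degree_eq_zero hnn hdeg
  have : Df v = 0 := by rw [h0]; rfl
  rw [hDf v] at this
  omega

/-- **`l(0) = 1`** when some place has degree one (e.g. `K` algebraically closed). -/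
theorem finrank_riemannRochSpace_zero (v : Place K F) (hv : v.deg = 1) :
    Module.finrank K (riemannRochSpace (0 : Divisor K F)) = 1 := by
  have hone : (⟨1, one_mem_riemannRochSpace le_rfl⟩ : riemannRochSpace (0 : Divisor K F)) ≠ 0 :=
    fun h => one_ne_zero (congrArg Subtype.val h)
  rw [finrank_eq_one_iff_of_nonzero' _ hone]
  rintro ⟨f, hf⟩
  -- `f` is integral at `v`
  have hfv : f ∈ v.toValuationSubring := by
    rw [← PlaceB.adicValuation_le_one_iff]
    have := hf v
    simpa using this
  -- its residue is a constant `a`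
  have hres1 : (1 : v.ResidueField) ≠ 0 := one_ne_zero
  obtain ⟨a, ha⟩ := (finrank_eq_one_iff_of_nonzero' (1 : v.ResidueField) hres1).mp hv
    (IsLocalRing.residue v.toValuationSubring ⟨f, hfv⟩)
  refine ⟨a, Subtype.ext ?_⟩
  show a • (1 : F) = f
  rw [Algebra.smul_def, mul_one]
  by_contra hne
  have hg0 : f - algebraMap K F a ≠ 0 := sub_ne_zero.mpr (Ne.symm hne)
  have hgmem : f - algebraMap K F a ∈ riemannRochSpace (0 : Divisor K F) := by
    refine sub_mem hf ?_
    have := (riemannRochSpace (0 : Divisor K F)).smul_mem a (one_mem_riemannRochSpace le_rfl)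
    rwa [Algebra.smul_def, mul_one] at this
  refine not_ord_pos_of_mem_zero hg0 hgmem v ?_
  rw [PlaceB.ord_pos_iff v hg0]
  -- `f - a` is a non-unit of the valuation ring
  have hmem : (⟨f, hfv⟩ - algebraMap K v.toValuationSubring a : v.toValuationSubring) ∈
      IsLocalRing.maximalIdeal v.toValuationSubring := by
    rw [← IsLocalRing.residue_eq_zero_iff, map_sub, ← ha, sub_eq_zero, Algebra.smul_def, mul_one]
    rfl
  have hle : v.adicValuation (f - algebraMap K F a) ≤ 1 := by
    rw [PlaceB.adicValuation_le_one_iff]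
    exact sub_mem hfv (v.algebraMap_mem' a)
  refine lt_of_le_of_ne hle fun h1 => ?_
  have hunit := (v.adicValuation_coe_eq_one_iff
    (⟨f, hfv⟩ - algebraMap K v.toValuationSubring a)).mp (by simpa using h1)
  exact (IsLocalRing.mem_maximalIdeal _).mp hmem hunit

end Zero

/-! ### Non-constant functions and infinitely many places from Riemann's theorem -/

section Infinite

variable [FiniteResidues K F] [HasPrincipalDivisors K F] [Nonempty (Place K F)]

omit [FiniteResidues K F] [HasPrincipalDivisors K F] in
/-- Riemann's theorem produces a non-constant function. -/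
theorem exists_nonconstant_of_rr (hdeg : ∀ P : Place K F, P.deg = 1) {g c : ℤ}
    (rr : ∀ E : Divisor K F, c ≤ Divisor.degree E →
      (Module.finrank K (riemannRochSpace E) : ℤ) = Divisor.degree E + 1 - g) :
    ∃ x : F, x ∉ Set.range (algebraMap K F) := by
  obtain ⟨P⟩ := ‹Nonempty (Place K F)›
  set m : ℕ := (max c (g + 1)).toNat with hm
  have hm1 : c ≤ (m : ℤ) := (le_max_left c (g + 1)).trans (Int.self_le_toNat _)
  have hm2 : g + 1 ≤ (m : ℤ) := (le_max_right c (g + 1)).trans (Int.self_le_toNat _)
  set E : Divisor K F := Finsupp.single P (m : ℤ) with hE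
  have hdE : Divisor.degree E = m := by rw [hE, Divisor.degree_single, hdeg, Nat.cast_one, mul_one]
  have h1 := rr E (by rw [hdE]; exact hm1)
  rw [hdE] at h1
  by_contra hall
  push Not at hall
  -- then `L(E)` is spanned by `1`
  have hEnn : 0 ≤ E := by
    rw [hE, Finsupp.le_def]
    intro Q
    classical
    rw [Finsupp.single_apply]
    split_ifs <;> simp
  have hone : (⟨1, one_mem_riemannRochSpace hEnn⟩ : riemannRochSpace E) ≠ 0 :=
    fun h => one_ne_zero (congrArg Subtype.val h)
  have h2 : Module.finrank K (riemannRochSpace E) = 1 := by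
    rw [finrank_eq_one_iff_of_nonzero' _ hone]
    rintro ⟨f, hf⟩
    obtain ⟨a, rfl⟩ := hall f
    exact ⟨a, Subtype.ext (by show a • (1 : F) = _; rw [Algebra.smul_def, mul_one])⟩
  rw [h2] at h1
  push_cast at h1
  omega

/-- infinitely many places, from Riemann's theorem over an infinite constant field. -/
theorem infinite_place_of_rr [Infinite K] (hdeg : ∀ P : Place K F, P.deg = 1) {g c : ℤ}
    (rr : ∀ E : Divisor K F, c ≤ Divisor.degree E →
      (Module.finrank K (riemannRochSpace E) : ℤ) = Divisor.degree E + 1 - g) :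
    Infinite (Place K F) := by
  obtain ⟨P⟩ := ‹Nonempty (Place K F)›
  obtain ⟨x, hx⟩ := exists_nonconstant_of_rr hdeg rr
  exact infinite_place (finrank_riemannRochSpace_zero P (hdeg P)) hx

end Infinite

/-! ### `Fin`-indexed non-special families -/

section Family

variable [FiniteResidues K F] [HasPrincipalDivisors K F] [Nonempty (Place K F)]

omit [FiniteResidues K F] [HasPrincipalDivisors K F] [Nonempty (Place K F)] in
theorem sum_single_eq_sumDiv [DecidableEq (Place K F)] {n : ℕ} (Q : Fin n → Place K F)
    (hQ : Function.Injective Q) :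
    (∑ i, Finsupp.single (Q i) (1 : ℤ)) = sumDiv (Finset.univ.image Q) := by
  rw [sumDiv, Finset.sum_image fun i _ j _ h => hQ h]

/-- **(b), `Fin` form** = the `Chart.hns` spelling. -/
theorem exists_nonspecial_fin [Infinite K] (hdeg : ∀ P : Place K F, P.deg = 1) {g c : ℤ}
    (rr : ∀ E : Divisor K F, c ≤ Divisor.degree E →
      (Module.finrank K (riemannRochSpace E) : ℤ) = Divisor.degree E + 1 - g)
    (S : Finset (Place K F)) (n : ℕ) (hn : (n : ℤ) ≤ g) :
    ∃ Q : Fin n → Place K F, Function.Injective Q ∧ (∀ i, Q i ∉ S) ∧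
      Module.finrank K (riemannRochSpace (∑ i, Finsupp.single (Q i) (1 : ℤ))) = 1 := by
  classical
  obtain ⟨P⟩ := ‹Nonempty (Place K F)›
  have hinf := infinite_place_of_rr hdeg rr
  obtain ⟨T, hTc, hTS, hT1⟩ := exists_nonspecial hdeg rr
    (finrank_riemannRochSpace_zero P (hdeg P)) S n hn
  let e : Fin n ≃ T := (Finset.equivFinOfCardEq hTc).symm
  refine ⟨fun i => (e i : Place K F), fun i j h => e.injective (Subtype.ext h), fun i hi => ?_, ?_⟩
  · exact Finset.disjoint_left.mp hTS (e i).2 hi
  · have : (∑ i, Finsupp.single ((e i : T) : Place K F) (1 : ℤ)) = sumDiv T := by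
      rw [sumDiv, ← Finset.sum_coe_sort T fun P => Finsupp.single P (1 : ℤ)]
      exact Equiv.sum_comp e fun P : T => Finsupp.single (P : Place K F) (1 : ℤ)
    rw [this, hT1]

/-- **(e)** `m` pairwise disjoint reduced non-special families of `n ≤ g` places, off any finite
set of places. -/
theorem exists_nonspecial_family [Infinite K] (hdeg : ∀ P : Place K F, P.deg = 1) {g c : ℤ}
    (rr : ∀ E : Divisor K F, c ≤ Divisor.degree E →
      (Module.finrank K (riemannRochSpace E) : ℤ) = Divisor.degree E + 1 - g)
    (S : Finset (Place K F)) (n : ℕ) (hn : (n : ℤ) ≤ g) (m : ℕ) :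
    ∃ Q : Fin m → Fin n → Place K F, (∀ j, Function.Injective (Q j)) ∧ (∀ j i, Q j i ∉ S) ∧
      (∀ j j' i i', j ≠ j' → Q j i ≠ Q j' i') ∧
      ∀ j, Module.finrank K (riemannRochSpace (∑ i, Finsupp.single (Q j i) (1 : ℤ))) = 1 := by
  classical
  induction m with
  | zero => exact ⟨Fin.elim0, fun j => j.elim0, fun j => j.elim0, fun j => j.elim0, fun j => j.elim0⟩
  | succ m ih =>
    obtain ⟨Q, hinj, hS, hdis, h1⟩ := ih
    obtain ⟨Q₀, hinj₀, hS₀, h₀⟩ := exists_nonspecial_fin hdeg rr
      (S ∪ (Finset.univ.image fun p : Fin m × Fin n => Q p.1 p.2)) n hn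
    have hS₀' : ∀ i, Q₀ i ∉ S ∧ ∀ j i', Q₀ i ≠ Q j i' := by
      intro i
      have := hS₀ i
      rw [Finset.mem_union, not_or] at this
      refine ⟨this.1, fun j i' h => this.2 ?_⟩
      rw [Finset.mem_image]
      exact ⟨(j, i'), Finset.mem_univ _, h.symm⟩
    refine ⟨Fin.cons Q₀ Q, ?_, ?_, ?_, ?_⟩
    · intro j
      refine Fin.cases ?_ (fun j => ?_) j
      · simpa using hinj₀
      · simpa using hinj j
    · intro j
      refine Fin.cases ?_ (fun j => ?_) j
      · simpa using fun i => (hS₀' i).1
      · simpa using hS j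
    · intro j j'
      refine Fin.cases ?_ (fun j => ?_) j <;> refine Fin.cases ?_ (fun j' => ?_) j'
      · intro i i' h; exact absurd rfl h
      · intro i i' _
        simpa using (hS₀' i).2 j' i'
      · intro i i' _
        simpa using fun h => (hS₀' i').2 j i h.symm
      · intro i i' h
        simpa using hdis j j' i i' fun hjj => h (by rw [hjj])
    · intro j
      refine Fin.cases ?_ (fun j => ?_) j
      · exact h₀
      · exact h1 j

end Family

end Fermat.Agent.GH.G6
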