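/-
GATE-H / node G GENERIC → contract `ChartSupply` of `GH/Vocab.lean` (helper87).

The special-fibre half of the chart supply needs ONLY `H : LSpaceHyp R g c` and `[Infinite k]`
(`degFt`, `rrFt` fields): reduced non-special families exist off any finite set
(`GH/G6/Family.lean`).  Given one chart point over every special place (node L (i)):

* `chartSupply_of_chartPt` : `ChartSupply H n` for every `n ≤ g`;
* `exists_charts_disjoint` : `m` charts with pairwise DISJOINT special supports, off any finite
  set of special places (the shape consumed by `AddSpec`).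
-/
import Mathlib
import Fermat.Agent.GH.Vocab
import Fermat.Agent.GH.G6.Family

set_option autoImplicit false

noncomputable section

open AlgebraicCurve

namespace Fermat.Agent.GH.G6

open Fermat.Agent.RRh45 Fermat.Agent.GJ.S37MinDiv Fermat.Agent.GJ.J1 Fermat.Agent.GJ.S37LSpace
  Fermat.Agent.GJ.S37ROfSurj Fermat.Agent.GH

variable {K F k Ft : Type*} [Field K] [Field F] [Algebra K F] [Field k] [Field Ft] [Algebra k Ft]
variable {R : RedData K F k Ft} {g c : ℤ}
variable [FiniteResidues K F] [HasPrincipalDivisors K F] [Nonempty (Place K F)]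
variable [FiniteResidues k Ft] [HasPrincipalDivisors k Ft] [Nonempty (Place k Ft)]
variable [Infinite k]

omit [FiniteResidues K F] [HasPrincipalDivisors K F] [Nonempty (Place K F)] in
/-- special-fibre supply, directly from an `LSpaceHyp`. -/
theorem special_family (H : LSpaceHyp R g c) (S : Finset (Place k Ft)) (n : ℕ)
    (hn : (n : ℤ) ≤ g) (m : ℕ) :
    ∃ Q : Fin m → Fin n → Place k Ft, (∀ j, Function.Injective (Q j)) ∧ (∀ j i, Q j i ∉ S) ∧
      (∀ j j' i i', j ≠ j' → Q j i ≠ Q j' i') ∧
      ∀ j, Module.finrank k (riemannRochSpace (∑ i, Finsupp.single (Q j i) (1 : ℤ))) = 1 :=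
  exists_nonspecial_family H.degFt H.rrFt S n hn m

omit [FiniteResidues K F] [HasPrincipalDivisors K F] [Nonempty (Place K F)] in
/-- the special fibre of an `LSpaceHyp` has infinitely many places. -/
theorem infinite_special_place (H : LSpaceHyp R g c) : Infinite (Place k Ft) :=
  infinite_place_of_rr H.degFt H.rrFt

omit [FiniteResidues K F] [HasPrincipalDivisors K F] [Nonempty (Place K F)] [Infinite k] in
/-- `l(0) = 1` on the special fibre. -/
theorem finrank_zero_special (H : LSpaceHyp R g c) :
    Module.finrank k (riemannRochSpace (0 : Divisor k Ft)) = 1 := by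
  obtain ⟨Q⟩ := ‹Nonempty (Place k Ft)›
  exact finrank_riemannRochSpace_zero Q (H.degFt Q)

omit [FiniteResidues k Ft] [HasPrincipalDivisors k Ft] [Nonempty (Place k Ft)] [Infinite k] in
/-- `l(0) = 1` on the generic fibre. -/
theorem finrank_zero_generic (H : LSpaceHyp R g c) :
    Module.finrank K (riemannRochSpace (0 : Divisor K F)) = 1 := by
  obtain ⟨P⟩ := ‹Nonempty (Place K F)›
  exact finrank_riemannRochSpace_zero P (H.degF P)

/-- **`ChartSupply`** from one chart point over every special place. -/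
theorem chartSupply_of_chartPt (H : LSpaceHyp R g c) (n : ℕ) (hn : (n : ℤ) ≤ g)
    (hpt : ∀ Q : Place k Ft, Nonempty (ChartPt H Q)) : ChartSupply H n := by
  intro S
  obtain ⟨Q, hinj, hS, h1⟩ := exists_nonspecial_fin H.degFt H.rrFt S n hn
  exact ⟨⟨Q, hinj, fun i => (hpt (Q i)).some, h1⟩, hS⟩

/-- `m` charts with pairwise disjoint special supports, off any finite set. -/
theorem exists_charts_disjoint (H : LSpaceHyp R g c) (n : ℕ) (hn : (n : ℤ) ≤ g)
    (hpt : ∀ Q : Place k Ft, Nonempty (ChartPt H Q)) (S : Finset (Place k Ft)) (m : ℕ) :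
    ∃ 𝔠 : Fin m → Chart H n, (∀ j i, (𝔠 j).Q i ∉ S) ∧
      ∀ j j', j ≠ j' → Disjoint (𝔠 j).supp (𝔠 j').supp := by
  obtain ⟨Q, hinj, hS, hdis, h1⟩ := special_family H S n hn m
  refine ⟨fun j => ⟨Q j, hinj j, fun i => (hpt (Q j i)).some, h1 j⟩, hS, fun j j' hjj' => ?_⟩
  rw [Set.disjoint_left]
  rintro _ ⟨i, rfl⟩ ⟨i', hi'⟩
  exact hdis j' j i' i (Ne.symm hjj') hi'

end Fermat.Agent.GH.G6
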